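import Fermat.Agent.LT.Whittaker.Parseval

/-!
# The integral over the unit box is invariant under `u ↦ m u`

For a periodic continuous function and a positive integer `m`, by Fubini and translation
invariance of the integral over the box.
-/

set_option autoImplicit false

noncomputable section

open MeasureTheory

namespace Fermat.Agent.LT.Whittaker

variable {ι : Type*} [Fintype ι]

/-- For a periodic function, multiplication by a positive integer preserves the box integral. -/
theorem integral_box_comp_smul {f : (ι → ℝ) → ℂ} (hf : IsPeriodic f) (hc : Continuous f) {C : ℝ}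
    (hC : ∀ u, ‖f u‖ ≤ C) {m : ℕ} (hm : 0 < m) :
    ∫ u in box ι, f ((m : ℝ) • u) = ∫ u in box ι, f u := by
  have := isFiniteMeasure_box (ι := ι)
  have hper : IsPeriodic fun u : ι → ℝ => f ((m : ℝ) • u) := fun u k => by
    have h := hf ((m : ℝ) • u) fun i => (m : ℤ) * k i
    beta_reduce
    rw [← h]
    refine congrArg f (funext fun i => ?_)
    simp [mul_add]
  have hint : Integrable (Function.uncurry fun s x : ι → ℝ => f ((m : ℝ) • x + s))
      ((volume.restrict (box ι)).prod (volume.restrict (box ι))) := by
    refine Integrable.of_bound ?_ C (Filter.Eventually.of_forall fun p => hC _)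
    exact (hc.comp ((continuous_snd.const_smul (m : ℝ)).add continuous_fst)).aestronglyMeasurable
  have h := integral_integral_swap hint
  have h1 : ∀ s : ι → ℝ, ∫ x in box ι, f ((m : ℝ) • x + s) = ∫ x in box ι, f ((m : ℝ) • x) := by
    intro s
    rw [← integral_box_add hper ((m : ℝ)⁻¹ • s)]
    refine integral_congr_ae (Filter.Eventually.of_forall fun x => ?_)
    simp only [smul_add, smul_inv_smul₀ (Nat.cast_ne_zero.mpr hm.ne' : (m : ℝ) ≠ 0)]
  have h2 : ∀ x : ι → ℝ, ∫ s in box ι, f ((m : ℝ) • x + s) = ∫ s in box ι, f s := by
    intro x
    simp only [add_comm ((m : ℝ) • x)]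
    exact integral_box_add hf _
  simp only [h1, h2, integral_const, Measure.real, Measure.restrict_apply_univ, volume_box,
    ENNReal.toReal_one, one_smul] at h
  exact h

end Fermat.Agent.LT.Whittaker
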