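import Fermat.Agent.LT.Translate.Basic
import Fermat.Agent.LT.Translate.Box
import Fermat.Agent.LT.Whittaker.Coefficient
import Fermat.Agent.LT.H3.ExpKernel
import Mathlib.LinearAlgebra.Basis.SMul

/-!
# Translates, traces and combinations of cusp forms are cusp forms

Continuity, boundedness, the eigen equations and the vanishing of the constant terms are preserved
by translation, by the trace over the fibres of a translation and by finite combinations.
-/

set_option autoImplicit false

noncomputable section

open MeasureTheory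
open NumberField (InfinitePlace)

namespace Fermat.Agent.LT.Translate

variable {F : Type*} [Field F] [NumberField F] {U U' : Level F} {g : GLFin F}

theorem continuous_translate (hg : Conjugates U' U g) {φ : Y U → ℂ}
    (hc : ∀ c, Continuous fun P => φ (P, c)) :
    ∀ c, Continuous fun P => translate hg φ (P, c) := fun c => hc (cosetShift hg c)

theorem bounded_translate (hg : Conjugates U' U g) {φ : Y U → ℂ}
    (hb : ∃ C : ℝ, ∀ y, ‖φ y‖ ≤ C) : ∃ C : ℝ, ∀ y, ‖translate hg φ y‖ ≤ C :=
  hb.imp fun _ h _ => h _

theorem isRadialEigen_translate (hg : Conjugates U' U g) {φ : Y U → ℂ} (hr : IsRadialEigen φ) :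
    IsRadialEigen (translate hg φ) := fun k y => hr k (yShift hg y)

/-- A translate of a cusp eigenfunction is one. -/
theorem isCuspEigen_translate (hg : Conjugates U' U g) {φ : Y U → ℂ}
    (hφ : Whittaker.IsCuspEigen φ) : Whittaker.IsCuspEigen (translate hg φ) where
  automorphic := isAutomorphic_translate hg hφ.automorphic
  continuous := continuous_translate hg hφ.continuous
  bounded := bounded_translate hg hφ.bounded
  eigen w y A hA := hφ.eigen w (yShift hg y) A hA
  zeroConst c t b ht hb := hφ.zeroConst (cosetShift hg c) t b ht fun i => by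
    rw [← cosetShift_smul, hb i]

/-- A translate of a cusp form is a cusp form. -/
theorem isSphericalCuspForm_translate (hg : Conjugates U' U g) {φ : Y U → ℂ}
    (hφ : IsSphericalCuspForm φ) : IsSphericalCuspForm (translate hg φ) :=
  ⟨isCuspEigen_translate hg hφ.cuspEigen, isRadialEigen_translate hg hφ.radial⟩

theorem continuous_trace (hg : Conjugates U' U g) {φ : Y U' → ℂ}
    (hc : ∀ c, Continuous fun P => φ (P, c)) :
    ∀ c, Continuous fun P => trace hg φ (P, c) :=
  fun c => by
    show Continuous fun P => ∑ b ∈ (finite_fibre hg c).toFinset, φ (P, b)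
    exact continuous_finsetSum _ fun b _ => hc b

theorem bounded_trace (hg : Conjugates U' U g) {φ : Y U' → ℂ}
    (hb : ∃ C : ℝ, ∀ y, ‖φ y‖ ≤ C) : ∃ C : ℝ, ∀ y, ‖trace hg φ y‖ ≤ C := by
  obtain ⟨C, hC⟩ := hb
  refine ⟨index hg * C, fun ⟨P, c⟩ => ?_⟩
  induction c using QuotientGroup.induction_on with
  | H x =>
  rw [trace_mk, index, ← nsmul_eq_mul, ← Finset.sum_const]
  exact (norm_sum_le _ _).trans (Finset.sum_le_sum fun b _ => hC _)

theorem isRadialEigen_trace (hg : Conjugates U' U g) {φ : Y U' → ℂ}
    (hc : ∀ c, Continuous fun P => φ (P, c)) (hr : IsRadialEigen φ) :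
    IsRadialEigen (trace hg φ) := by
  rintro k ⟨P, c⟩
  calc k.op (trace hg φ) (P, c)
      = ∫ Q, ∑ b ∈ (finite_fibre hg c).toFinset, k.weight P Q • φ (Q, b) ∂infVol F := by
        simp only [RadialKernel.op, trace, Finset.smul_sum]
    _ = ∑ b ∈ (finite_fibre hg c).toFinset, k.op φ (P, b) :=
        integral_finsetSum _ fun b _ =>
          H3.integrable_prod_profile_smul k.continuous k.hasCompactSupport P (hc b)
    _ = (k.scalar : ℂ) * trace hg φ (P, c) := by
        simp only [trace, Finset.mul_sum]
        exact Finset.sum_congr rfl fun b _ => hr k (P, b)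

open Classical in
/-- Traces preserve the spherical eigen equation at each infinite place. -/
theorem eigen_trace (hg : Conjugates U' U g) {φ : Y U' → ℂ} (hφ : Whittaker.IsCuspEigen φ)
    (w : InfinitePlace F) (y : Y U) (A : ℝ) (hA : 0 < A) :
    ∫ Q, (Real.exp (-(A * H3.cdist (y.1 w) Q)) : ℂ) *
        trace hg φ (Function.update y.1 w Q, y.2) ∂H3.vol
      = (Whittaker.sphEigen A : ℂ) * trace hg φ y := by
  obtain ⟨C, hC⟩ := hφ.bounded
  show ∫ Q, (Real.exp (-(A * H3.cdist (y.1 w) Q)) : ℂ) *
        (∑ b ∈ (finite_fibre hg y.2).toFinset, φ (Function.update y.1 w Q, b)) ∂H3.vol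
      = (Whittaker.sphEigen A : ℂ) * ∑ b ∈ (finite_fibre hg y.2).toFinset, φ (y.1, b)
  generalize (finite_fibre hg y.2).toFinset = S
  simp only [Finset.mul_sum]
  rw [integral_finsetSum]
  · exact Finset.sum_congr rfl fun b _ => hφ.eigen w (y.1, b) A hA
  · intro b _
    simp only [mul_comm (Complex.ofReal _)]
    exact (H3.integrable_exp_neg_cdist hA (y.1 w)).ofReal.bdd_mul
      ((hφ.continuous b).comp (continuous_const.update w continuous_id)).aestronglyMeasurable
      (Filter.Eventually.of_forall fun Q => hC _)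

/-- Some positive multiple of `β` and all its multiples fix `c` as translations. -/
theorem exists_nsmul_mem_stabAdd (β : F) (c : GLFin F ⧸ U.toSubgroup) :
    ∃ m : ℕ, 0 < m ∧ ∀ q : ℕ, m ∣ q → (q : ℕ) • β ∈ Whittaker.stabAdd c := by
  obtain ⟨M, hM, hfix⟩ := Whittaker.exists_unip_smul c
  obtain ⟨d, hd, o, ho⟩ := Reduction.exists_natCast_mul_eq β
  refine ⟨M * d, Nat.mul_pos hM hd, ?_⟩
  rintro _ ⟨k, rfl⟩
  rw [mul_comm (M * d), ← smul_smul]
  refine (Whittaker.stabAdd c).nsmul_mem ?_ k
  show glIncl F (unip ((M * d) • β)) • c = c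
  rw [nsmul_eq_mul, Nat.cast_mul, mul_assoc, ho, Whittaker.glIncl_unip, map_mul, map_natCast]
  exact hfix _ (Reduction.finIncl_mem_of_isIntegral o)

/-- Traces have vanishing constant terms. -/
theorem zeroConst_trace (hg : Conjugates U' U g) {φ : Y U' → ℂ} (hφ : Whittaker.IsCuspEigen φ)
    (c : GLFin F ⧸ U.toSubgroup) (t : InfinitePlace F → ℝ)
    (b : Module.Basis (Fin (Module.finrank ℚ F)) ℚ F) (ht : ∀ w, 0 < t w)
    (hb : ∀ i, glIncl F (unip (b i)) • c = c) :
    ∫ u in {u : Fin (Module.finrank ℚ F) → ℝ | ∀ i, u i ∈ Set.Ioc (0 : ℝ) 1},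
      trace hg φ (Whittaker.ptAt (fun w => ∑ i, (u i : ℂ) * w.embedding (b i)) t, c) = 0 := by
  classical
  choose m hm hmem using fun (p : GLFin F ⧸ U'.toSubgroup) (i : Fin (Module.finrank ℚ F)) =>
    exists_nsmul_mem_stabAdd (b i) p
  set S := (finite_fibre hg c).toFinset
  set N := ∏ p ∈ S ×ˢ (Finset.univ : Finset (Fin (Module.finrank ℚ F))), m p.1 p.2
  have hN : 0 < N := Finset.prod_pos fun p _ => hm _ _
  have hdvd : ∀ p ∈ S, ∀ i, m p i ∣ N := fun p hp i =>
    Finset.dvd_prod_of_mem (fun q : _ × _ => m q.1 q.2) (a := (p, i))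
      (Finset.mem_product.mpr ⟨hp, Finset.mem_univ i⟩)
  have hNu : ∀ _ : Fin (Module.finrank ℚ F), IsUnit (N : ℚ) := fun _ =>
    isUnit_iff_ne_zero.mpr (Nat.cast_ne_zero.mpr hN.ne')
  set bN := b.isUnitSMul hNu
  have hbN : ∀ i, bN i = N • b i := fun i => by
    rw [Module.Basis.isUnitSMul_apply, Nat.cast_smul_eq_nsmul]
  have hemb : ∀ u, Whittaker.boxEmb bN u = Whittaker.boxEmb b ((N : ℝ) • u) := fun u => by
    funext w
    rw [Whittaker.boxEmb_apply, Whittaker.boxEmb_apply]
    refine Finset.sum_congr rfl fun i _ => ?_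
    rw [hbN, map_nsmul, nsmul_eq_mul, Pi.smul_apply, smul_eq_mul]
    push_cast
    ring
  obtain ⟨C, hC⟩ := bounded_trace hg hφ.bounded
  have hper := Whittaker.torusFn_periodic b (isAutomorphic_trace hg hφ.automorphic) hb ht
  have hcont : Continuous (Whittaker.torusFn b (trace hg φ) c t) :=
    (continuous_trace hg hφ.continuous c).comp ((Whittaker.continuous_ptAt ht).comp
      (LinearMap.continuous_of_finiteDimensional (Whittaker.boxEmb b)))
  show ∫ u in Whittaker.box (Fin (Module.finrank ℚ F)),
    Whittaker.torusFn b (trace hg φ) c t u = 0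
  rw [← Whittaker.integral_box_comp_smul hper hcont (fun u => hC _) hN]
  simp only [Whittaker.torusFn, ← hemb]
  show ∫ u in Whittaker.box (Fin (Module.finrank ℚ F)),
    ∑ p ∈ S, φ (Whittaker.ptAt (Whittaker.boxEmb bN u) t, p) = 0
  clear_value S
  rw [integral_finsetSum]
  · refine Finset.sum_eq_zero fun p hp => ?_
    exact hφ.zeroConst p t bN ht fun i => by
      rw [hbN]; exact hmem p i N (hdvd p hp i)
  · intro p _
    obtain ⟨C', hC'⟩ := hφ.bounded
    have := Whittaker.isFiniteMeasure_box (ι := Fin (Module.finrank ℚ F))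
    exact Integrable.of_bound ((hφ.continuous p).comp ((Whittaker.continuous_ptAt ht).comp
      (LinearMap.continuous_of_finiteDimensional (Whittaker.boxEmb bN)))).aestronglyMeasurable C'
      (Filter.Eventually.of_forall fun u => hC' _)

/-- A trace of a cusp eigenfunction is one. -/
theorem isCuspEigen_trace (hg : Conjugates U' U g) {φ : Y U' → ℂ}
    (hφ : Whittaker.IsCuspEigen φ) : Whittaker.IsCuspEigen (trace hg φ) where
  automorphic := isAutomorphic_trace hg hφ.automorphic
  continuous := continuous_trace hg hφ.continuous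
  bounded := bounded_trace hg hφ.bounded
  eigen := eigen_trace hg hφ
  zeroConst := zeroConst_trace hg hφ

/-- A trace of a cusp form is a cusp form. -/
theorem isSphericalCuspForm_trace (hg : Conjugates U' U g) {φ : Y U' → ℂ}
    (hφ : IsSphericalCuspForm φ) : IsSphericalCuspForm (trace hg φ) :=
  ⟨isCuspEigen_trace hg hφ.cuspEigen,
    isRadialEigen_trace hg hφ.cuspEigen.continuous hφ.radial⟩

open Classical in
/-- Finite combinations of cusp forms are cusp forms. -/
theorem isSphericalCuspForm_sum {ι : Type*} (s : Finset ι) (k : ι → ℂ) (φ : ι → Y U → ℂ)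
    (hφ : ∀ i ∈ s, IsSphericalCuspForm (φ i)) :
    IsSphericalCuspForm fun y => ∑ i ∈ s, k i * φ i y where
  cuspEigen :=
    { automorphic := fun γ y => Finset.sum_congr rfl fun i hi => by
        rw [(hφ i hi).cuspEigen.automorphic γ y]
      continuous := fun c => continuous_finsetSum _ fun i hi =>
        continuous_const.mul ((hφ i hi).cuspEigen.continuous c)
      bounded := by
        choose C hC using fun i (hi : i ∈ s) => (hφ i hi).cuspEigen.bounded
        refine ⟨∑ i ∈ s.attach, ‖k i.1‖ * C i.1 i.2, fun y => ?_⟩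
        rw [← Finset.sum_attach]
        refine (norm_sum_le _ _).trans (Finset.sum_le_sum fun i _ => ?_)
        rw [norm_mul]
        exact mul_le_mul_of_nonneg_left (hC i.1 i.2 y) (norm_nonneg _)
      eigen := fun w y A hA => by
        simp only [Finset.mul_sum, mul_left_comm _ (k _)]
        rw [integral_finsetSum]
        · refine Finset.sum_congr rfl fun i hi => ?_
          rw [integral_const_mul, (hφ i hi).cuspEigen.eigen w y A hA]
        · intro i hi
          obtain ⟨C, hC⟩ := (hφ i hi).cuspEigen.bounded
          refine Integrable.const_mul ?_ _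
          simp only [mul_comm (Complex.ofReal _)]
          exact (H3.integrable_exp_neg_cdist hA (y.1 w)).ofReal.bdd_mul
            (((hφ i hi).cuspEigen.continuous y.2).comp
              (continuous_const.update w continuous_id)).aestronglyMeasurable
            (Filter.Eventually.of_forall fun Q => hC _)
      zeroConst := fun c t b ht hb => by
        rw [integral_finsetSum]
        · refine Finset.sum_eq_zero fun i hi => ?_
          rw [integral_const_mul, (hφ i hi).cuspEigen.zeroConst c t b ht hb, mul_zero]
        · intro i hi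
          obtain ⟨C, hC⟩ := (hφ i hi).cuspEigen.bounded
          have : IsFiniteMeasure (volume.restrict {u : Fin (Module.finrank ℚ F) → ℝ |
              ∀ i, u i ∈ Set.Ioc (0 : ℝ) 1}) := Whittaker.isFiniteMeasure_box
          exact (Integrable.of_bound (((hφ i hi).cuspEigen.continuous c).comp
            ((Whittaker.continuous_ptAt ht).comp (LinearMap.continuous_of_finiteDimensional
              (Whittaker.boxEmb b)))).aestronglyMeasurable C
            (Filter.Eventually.of_forall fun u => hC _)).const_mul _ }
  radial := fun r y => by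
    calc r.op (fun y => ∑ i ∈ s, k i * φ i y) y
        = ∫ Q, ∑ i ∈ s, k i * (r.weight y.1 Q • φ i (Q, y.2)) ∂infVol F := by
          simp only [RadialKernel.op, Finset.smul_sum, mul_smul_comm]
      _ = ∑ i ∈ s, k i * r.op (φ i) y :=
          (integral_finsetSum _ fun i hi => (H3.integrable_prod_profile_smul r.continuous
            r.hasCompactSupport y.1 ((hφ i hi).cuspEigen.continuous y.2)).const_mul (k i)).trans
              (Finset.sum_congr rfl fun i _ => integral_const_mul _ _)
      _ = (r.scalar : ℂ) * ∑ i ∈ s, k i * φ i y := by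
          rw [Finset.mul_sum]
          exact Finset.sum_congr rfl fun i hi => by rw [(hφ i hi).radial r y]; ring

end Fermat.Agent.LT.Translate
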