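import Fermat.Agent.LT.Translate.Basic
import Fermat.Agent.LT.Places.HeckeSetup

/-!
# Translates and traces commute with the Hecke operators at good places

A translating element integral at `v` can be taken trivial at `v`, so it commutes with the local
representatives of `T_v`; hence translates and traces keep eigensystems away from the levels.
-/

set_option autoImplicit false

noncomputable section

open NumberField
open NumberField (InfinitePlace)
open scoped NumberField

namespace Fermat.Agent.LT.Translate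

open Places

variable {F : Type*} [Field F] [NumberField F] {U U' : Level F} {g : GLFin F} {v : FinPlace F}

/-- An element trivial at `v` commutes with the local elements at `v`. -/
theorem localGL_comm_of_trivial {z : GLFin F} (hz : glPlace v z = 1)
    (a : GL (Fin 2) (v.adicCompletion F)) : localGL v a * z = z * localGL v a :=
  localGL_mul_comm a (by rw [hz]; exact Commute.one_right a)

/-- Every element is a local element times one trivial at `v`. -/
theorem exists_split_at (v : FinPlace F) (x : GLFin F) :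
    ∃ z : GLFin F, glPlace v z = 1 ∧ x = localGL v (glPlace v x) * z :=
  ⟨(localGL v (glPlace v x))⁻¹ * x, by rw [map_mul, map_inv, glPlace_localGL_same, inv_mul_cancel],
    by rw [mul_inv_cancel_left]⟩

/-- A translating element which is integral at `v` can be taken trivial at `v`. -/
theorem exists_trivial_at (hU : IsGoodAt U v) (hv : glPlace v g ∈ intGroup v) :
    ∃ g' : GLFin F, glPlace v g' = 1 ∧
      ∀ x : GLFin F, (QuotientGroup.mk (x * g) : GLFin F ⧸ U.toSubgroup) =
        QuotientGroup.mk (x * g') := by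
  obtain ⟨z, hz, he⟩ := exists_split_at v g
  refine ⟨z, hz, fun x => QuotientGroup.eq.mpr ?_⟩
  rw [he, localGL_comm_of_trivial hz,
    show (x * (z * localGL v (glPlace v g)))⁻¹ * (x * z) = (localGL v (glPlace v g))⁻¹ by group]
  exact U.toSubgroup.inv_mem (hU _ hv)

/-- Translation commutes with `T_v`. -/
theorem translate_heckeAt (hg : Conjugates U' U g) (hU : IsGoodAt U v) (hU' : IsGoodAt U' v)
    (hv : glPlace v g ∈ intGroup v) (φ : Y U → ℂ) :
    (heckeAt U' v hU').op (translate hg φ) = translate hg ((heckeAt U v hU).op φ) := by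
  have := Fintype.ofFinite (Residue v)
  funext ⟨P, c⟩
  induction c using QuotientGroup.induction_on with
  | H x =>
  obtain ⟨g', hg', hmk⟩ := exists_trivial_at hU hv
  rw [heckeAt_op hU' (translate hg φ) P x, translate_mk, hmk x, heckeAt_op hU φ P (x * g')]
  refine Finset.sum_congr rfl fun r _ => ?_
  rw [translate_mk, hmk, mul_assoc x, localGL_comm_of_trivial hg', ← mul_assoc]

/-- The fibre over the trivial coset has representatives trivial at `v`. -/
theorem exists_trivial_rep (hg : Conjugates U' U g) (hU : IsGoodAt U v) (hU' : IsGoodAt U' v)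
    (hv : glPlace v g ∈ intGroup v) {b : GLFin F ⧸ U'.toSubgroup}
    (hb : cosetShift hg b = QuotientGroup.mk 1) :
    ∃ z : GLFin F, glPlace v z = 1 ∧ b = QuotientGroup.mk z := by
  induction b using QuotientGroup.induction_on with
  | H x =>
  obtain ⟨g', hg', hmk⟩ := exists_trivial_at hU hv
  rw [cosetShift_mk, hmk, QuotientGroup.eq, mul_one] at hb
  obtain ⟨a, k, hk, -, hxk⟩ := exists_scalar_mul U (inv_mem hb)
  rw [inv_inv] at hxk
  obtain ⟨k', hk', hke⟩ := exists_split_at v k
  refine ⟨k' * g'⁻¹, by rw [map_mul, map_inv, hk', hg', inv_one, mul_one], QuotientGroup.eq.mpr ?_⟩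
  have hx : x = k' * g'⁻¹ * (localGL v (glPlace v k) * scalarFin F a) := by
    have h1 : x = scalarFin F a * (localGL v (glPlace v k) * k') * g'⁻¹ := by
      rw [← hke, ← hxk, mul_inv_cancel_right]
    rw [h1, mul_assoc (scalarFin F a), scalarFin_comm, localGL_comm_of_trivial hk',
      mul_assoc k', localGL_comm_of_trivial (show glPlace v g'⁻¹ = 1 by
        rw [map_inv, hg', inv_one])]
    simp only [mul_assoc]
  rw [hx, _root_.mul_inv_rev, inv_mul_cancel_right]
  exact U'.toSubgroup.inv_mem (U'.toSubgroup.mul_mem (hU' _ (hk v)) (U'.scalar_mem a))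

/-- The trace commutes with `T_v`. -/
theorem trace_heckeAt (hg : Conjugates U' U g) (hU : IsGoodAt U v) (hU' : IsGoodAt U' v)
    (hv : glPlace v g ∈ intGroup v) (φ : Y U' → ℂ) :
    (heckeAt U v hU).op (trace hg φ) = trace hg ((heckeAt U' v hU').op φ) := by
  have := Fintype.ofFinite (Residue v)
  funext ⟨P, c⟩
  induction c using QuotientGroup.induction_on with
  | H x =>
  rw [heckeAt_op hU (trace hg φ) P x]
  simp only [trace_mk]
  rw [Finset.sum_comm]
  refine Finset.sum_congr rfl fun b hb => ?_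
  have hb' : cosetShift hg b = QuotientGroup.mk 1 := (finite_fibre hg _).mem_toFinset.mp hb
  obtain ⟨z, hz, rfl⟩ := exists_trivial_rep hg hU hU' hv hb'
  show ∑ r, φ (P, QuotientGroup.mk (x * localGL v (rep v r) * z)) =
    (heckeAt U' v hU').op φ (P, QuotientGroup.mk (x * z))
  rw [heckeAt_op hU' φ P (x * z)]
  refine Finset.sum_congr rfl fun r _ => ?_
  rw [mul_assoc x, localGL_comm_of_trivial hz, ← mul_assoc]

/-- Being a Hecke eigenfunction at `v`, at a level containing a principal one. -/
theorem isHeckeEigenAt_iff {N : ℕ} (hN : 0 < N) (hU : ∀ k, IsPrincipal F N k → k ∈ U.toSubgroup)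
    (hv : (N : 𝓞 F) ∉ v.asIdeal) (φ : Y U → ℂ) (c : ℂ) :
    IsHeckeEigenAt N φ v.asIdeal c ↔
      (heckeAt U v fun _ hk => hU _ (isPrincipal_localGL hN hv hk)).IsEigen φ c := by
  have hset : ∀ a : (FinAdele F)ˣ, IsUniformiserAt N v.asIdeal a →
      doubleSet U (diagIdele F a) = heckeSet U v := fun a ha =>
    doubleSet_diagIdele (hU _ (isPrincipal_dia_unit hN hv ha))
  constructor
  · intro H y
    have := H (piUnit v) (isUniformiserAt_piUnit hN hv) y
    rwa [doubleOp_eq (fun k hk => hU _ (isPrincipal_localGL hN hv hk))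
      (hset _ (isUniformiserAt_piUnit hN hv))] at this
  · intro H a ha y
    rw [doubleOp_eq (fun k hk => hU _ (isPrincipal_localGL hN hv hk)) (hset a ha)]
    exact H y

variable {N N' : ℕ}

/-- Translates of Hecke eigenfunctions are eigen with the same eigenvalue. -/
theorem isHeckeEigenAt_translate (hg : Conjugates U' U g) (hN : 0 < N) (hN' : 0 < N')
    (hU : ∀ k, IsPrincipal F N k → k ∈ U.toSubgroup)
    (hU' : ∀ k, IsPrincipal F N' k → k ∈ U'.toSubgroup)
    (hNv : (N : 𝓞 F) ∉ v.asIdeal) (hN'v : (N' : 𝓞 F) ∉ v.asIdeal)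
    (hv : glPlace v g ∈ intGroup v) {φ : Y U → ℂ} {c : ℂ}
    (h : IsHeckeEigenAt N φ v.asIdeal c) : IsHeckeEigenAt N' (translate hg φ) v.asIdeal c := by
  rw [isHeckeEigenAt_iff hN hU hNv] at h
  rw [isHeckeEigenAt_iff hN' hU' hN'v]
  intro y
  rw [translate_heckeAt hg (fun k hk => hU _ (isPrincipal_localGL hN hNv hk))
    (fun k hk => hU' _ (isPrincipal_localGL hN' hN'v hk)) hv φ]
  exact h (yShift hg y)

/-- Traces of Hecke eigenfunctions are eigen with the same eigenvalue. -/
theorem isHeckeEigenAt_trace (hg : Conjugates U' U g) (hN : 0 < N) (hN' : 0 < N')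
    (hU : ∀ k, IsPrincipal F N k → k ∈ U.toSubgroup)
    (hU' : ∀ k, IsPrincipal F N' k → k ∈ U'.toSubgroup)
    (hNv : (N : 𝓞 F) ∉ v.asIdeal) (hN'v : (N' : 𝓞 F) ∉ v.asIdeal)
    (hv : glPlace v g ∈ intGroup v) {φ : Y U' → ℂ} {c : ℂ}
    (h : IsHeckeEigenAt N' φ v.asIdeal c) : IsHeckeEigenAt N (trace hg φ) v.asIdeal c := by
  rw [isHeckeEigenAt_iff hN' hU' hN'v] at h
  rw [isHeckeEigenAt_iff hN hU hNv]
  intro y
  rw [trace_heckeAt hg (fun k hk => hU _ (isPrincipal_localGL hN hNv hk))
    (fun k hk => hU' _ (isPrincipal_localGL hN' hN'v hk)) hv φ]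
  simp only [trace, Finset.mul_sum]
  exact Finset.sum_congr rfl fun b _ => h _

/-- Translation preserves eigensystems away from the levels and the support of `g`. -/
theorem isHeckeEigenSystem_translate (hg : Conjugates U' U g) (hN : 0 < N) (hN' : 0 < N')
    (hd : N ∣ N') (hU : ∀ k, IsPrincipal F N k → k ∈ U.toSubgroup)
    (hU' : ∀ k, IsPrincipal F N' k → k ∈ U'.toSubgroup)
    (hv : ∀ v : FinPlace F, (N' : 𝓞 F) ∉ v.asIdeal → glPlace v g ∈ intGroup v)
    {φ : Y U → ℂ} {lam : Ideal (𝓞 F) → ℂ} (h : IsHeckeEigenSystem N φ lam) :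
    IsHeckeEigenSystem N' (translate hg φ) lam := by
  intro P hP hP0 hNP
  have hNP' : (N : 𝓞 F) ∉ P := by
    obtain ⟨k, rfl⟩ := hd
    exact fun hm => hNP (by push_cast; exact P.mul_mem_right _ hm)
  exact isHeckeEigenAt_translate (v := ⟨P, hP, hP0⟩) hg hN hN' hU hU' hNP' hNP
    (hv ⟨P, hP, hP0⟩ hNP) (h P hP hP0 hNP')

/-- Traces preserve eigensystems away from a common multiple `N` of the levels and the support
of `g`. -/
theorem isHeckeEigenSystem_trace (hg : Conjugates U' U g) (hN : 0 < N)
    (hU : ∀ k, IsPrincipal F N k → k ∈ U.toSubgroup)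
    (hU' : ∀ k, IsPrincipal F N k → k ∈ U'.toSubgroup)
    (hv : ∀ v : FinPlace F, (N : 𝓞 F) ∉ v.asIdeal → glPlace v g ∈ intGroup v)
    {φ : Y U' → ℂ} {lam : Ideal (𝓞 F) → ℂ} (h : IsHeckeEigenSystem N φ lam) :
    IsHeckeEigenSystem N (trace hg φ) lam := fun P hP hP0 hNP =>
  isHeckeEigenAt_trace (v := ⟨P, hP, hP0⟩) hg hN hN hU hU' hNP hNP
    (hv ⟨P, hP, hP0⟩ hNP) (h P hP hP0 hNP)

end Fermat.Agent.LT.Translate
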