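import Fermat.Agent.LT.Setup.Measure
import Fermat.Agent.LT.Reduction.Classes

/-!
# Right translates, pullback and trace between levels

`Conjugates U' U g` says `g⁻¹ U' g ⊆ U`; then `x ↦ x g` descends to `GL₂(A_f)/U' → GL₂(A_f)/U`.
Pullback to a smaller level is the case `g = 1`; `trace` sums over the fibres.
-/

set_option autoImplicit false

noncomputable section

open MeasureTheory
open scoped NumberField

namespace Fermat.Agent.LT

variable {F : Type*} [Field F] [NumberField F]

/-- `g⁻¹ U' g ⊆ U`. -/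
def Conjugates (U' U : Level F) (g : GLFin F) : Prop :=
  ∀ v ∈ U'.toSubgroup, g⁻¹ * v * g ∈ U.toSubgroup

/-- `Conjugates` composes. -/
theorem Conjugates.comp {U U' U'' : Level F} {g h : GLFin F} (hh : Conjugates U'' U' h)
    (hg : Conjugates U' U g) : Conjugates U'' U (h * g) := fun v hv => by
  have := hg _ (hh v hv)
  rwa [show g⁻¹ * (h⁻¹ * v * h) * g = (h * g)⁻¹ * v * (h * g) by group] at this

namespace Translate

variable {U U' U'' : Level F} {g h : GLFin F}

/-- An inclusion of levels is `Conjugates` by `1`. -/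
theorem conjugates_of_le (hle : U'.toSubgroup ≤ U.toSubgroup) : Conjugates U' U 1 := fun v hv => by
  simpa using hle hv

/-- Conjugation carries small principal subgroups into small principal subgroups. -/
theorem exists_principal_conj (g : GLFin F) {N : ℕ} (hN : 0 < N) :
    ∃ M : ℕ, 0 < M ∧ ∀ x, IsPrincipal F M x → IsPrincipal F N (g⁻¹ * x * g) := by
  obtain ⟨d, hd, hdi⟩ := Reduction.exists_denominator (fun p : Bool × Fin 2 × Fin 2 =>
    if p.1 then g.val p.2.1 p.2.2 else (g⁻¹).val p.2.1 p.2.2)
  have key : ∀ x : GLFin F, (∀ i j, ∃ a ∈ integralAdele F, x.val i j =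
      (1 : Matrix (Fin 2) (Fin 2) (FinAdele F)) i j + ((N * (d * d) : ℕ) : FinAdele F) * a) →
      ∀ i j, ∃ a ∈ integralAdele F, (g⁻¹ * x * g).val i j =
        (1 : Matrix (Fin 2) (Fin 2) (FinAdele F)) i j + (N : FinAdele F) * a := by
    intro x hx i j
    choose a ha hax using hx
    set O : Matrix (Fin 2) (Fin 2) (FinAdele F) := Matrix.of a
    have hval : x.val = 1 + ((N * (d * d) : ℕ) : FinAdele F) • O := by
      ext k l
      rw [hax, Matrix.add_apply, Matrix.smul_apply, smul_eq_mul]
      rfl
    refine ⟨((((d : FinAdele F) • (g⁻¹).val) * O) * ((d : FinAdele F) • g.val)) i j, ?_, ?_⟩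
    · rw [Matrix.mul_apply]
      refine sum_mem fun l _ => mul_mem ?_ ?_
      · rw [Matrix.mul_apply]
        refine sum_mem fun q _ => mul_mem ?_ (ha q l)
        simpa [Matrix.smul_apply] using hdi (false, i, q)
      · simpa using hdi (true, l, j)
    · rw [Units.val_mul, Units.val_mul, hval, Matrix.mul_add, Matrix.add_mul, Matrix.mul_one,
        ← Units.val_mul, inv_mul_cancel, Units.val_one, Matrix.add_apply]
      congr 1
      simp only [Matrix.mul_apply, Matrix.smul_apply, Fin.sum_univ_two, smul_eq_mul]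
      push_cast
      ring
  refine ⟨N * (d * d), by positivity, fun x hx i j => ?_⟩
  obtain ⟨a, ha, ea⟩ := key x hx.left i j
  obtain ⟨b, hb, eb⟩ := key x⁻¹ hx.inv.left i j
  refine ⟨a, ha, b, hb, ea, ?_⟩
  rw [← eb, show (g⁻¹ * x * g)⁻¹ = g⁻¹ * x⁻¹ * g by group]

end Translate

/-- The largest level inside the standard maximal one which `g` conjugates into `U`. -/
def Level.conjInf (U : Level F) (g : GLFin F) : Level F where
  toSubgroup := principalSubgroup F 1 ⊓ U.toSubgroup.comap (MulAut.conj g⁻¹).toMonoidHom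
  scalar_mem a := ⟨⟨a, 1, IsPrincipal.one 1, by simp⟩, by
    show g⁻¹ * scalarFin F a * g⁻¹⁻¹ ∈ U.toSubgroup
    rw [inv_inv, ← scalarFin_comm, inv_mul_cancel_right]
    exact U.scalar_mem a⟩
  exists_principal := by
    obtain ⟨N, hN, hU⟩ := U.exists_principal
    obtain ⟨M, hM, hc⟩ := Translate.exists_principal_conj g hN
    refine ⟨M, hM, fun x hx => ⟨⟨1, x, hx.of_dvd (one_dvd M), by simp⟩, ?_⟩⟩
    show g⁻¹ * x * g⁻¹⁻¹ ∈ U.toSubgroup
    rw [inv_inv]
    exact hU _ (hc x hx)
  le_maximal x hx := hx.1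

namespace Translate

variable {U U' U'' : Level F} {g h : GLFin F}

theorem conjugates_conjInf (U : Level F) (g : GLFin F) : Conjugates (U.conjInf g) U g :=
  fun v hv => by
    have : g⁻¹ * v * g⁻¹⁻¹ ∈ U.toSubgroup := hv.2
    rwa [inv_inv] at this

/-- Every translate is defined on a small principal level. -/
theorem exists_principal_conjugates (U : Level F) (g : GLFin F) :
    ∃ N : ℕ, 0 < N ∧ ∀ (M : ℕ) (hM : 0 < M), N ∣ M → Conjugates (Level.principal F M hM) U g := by
  obtain ⟨N, hN, hU⟩ := (U.conjInf g).exists_principal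
  refine ⟨N, hN, fun M hM hd v hv => conjugates_conjInf U g v ?_⟩
  obtain ⟨a, k, hk, rfl⟩ := hv
  exact (U.conjInf g).toSubgroup.mul_mem ((U.conjInf g).scalar_mem a) (hU k (hk.of_dvd hd))

/-- `x ↦ x g` on cosets. -/
def cosetShift (hg : Conjugates U' U g) :
    GLFin F ⧸ U'.toSubgroup → GLFin F ⧸ U.toSubgroup :=
  Quotient.map' (fun x => x * g) fun x x' hx => QuotientGroup.leftRel_apply.mpr (by
    rw [show (x * g)⁻¹ * (x' * g) = g⁻¹ * (x⁻¹ * x') * g by group]
    exact hg _ (QuotientGroup.leftRel_apply.mp hx))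

/-- `cosetShift` on the class of `x` is the class of `x g`. -/
theorem cosetShift_mk (hg : Conjugates U' U g) (x : GLFin F) :
    cosetShift hg (QuotientGroup.mk x) = QuotientGroup.mk (x * g) := rfl

/-- `cosetShift` commutes with left translations. -/
theorem cosetShift_smul (hg : Conjugates U' U g) (a : GLFin F) (c : GLFin F ⧸ U'.toSubgroup) :
    cosetShift hg (a • c) = a • cosetShift hg c := by
  induction c using QuotientGroup.induction_on with
  | H x => exact congrArg QuotientGroup.mk (mul_assoc a x g)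

/-- `cosetShift` is surjective. -/
theorem cosetShift_surjective (hg : Conjugates U' U g) : Function.Surjective (cosetShift hg) :=
  fun c => by
    induction c using QuotientGroup.induction_on with
    | H x => exact ⟨QuotientGroup.mk (x * g⁻¹), by rw [cosetShift_mk, inv_mul_cancel_right]⟩

/-- The induced map of spaces. -/
def yShift (hg : Conjugates U' U g) (y : Y U') : Y U := (y.1, cosetShift hg y.2)

theorem yShift_smul (hg : Conjugates U' U g) (γ : GL (Fin 2) F) (y : Y U') :
    yShift hg (γ • y) = γ • yShift hg y :=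
  Prod.ext rfl (cosetShift_smul hg (glIncl F γ) y.2)

/-- The right translate of a function; for `g = 1` the pullback to a smaller level. -/
def translate {β : Type*} (hg : Conjugates U' U g) (φ : Y U → β) : Y U' → β :=
  fun y => φ (yShift hg y)

/-- A translate evaluated at the class of `x`. -/
theorem translate_mk {β : Type*} (hg : Conjugates U' U g) (φ : Y U → β)
    (P : NumberField.InfinitePlace F → H3) (x : GLFin F) :
    translate hg φ (P, QuotientGroup.mk x) = φ (P, QuotientGroup.mk (x * g)) := rfl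

/-- Translates of automorphic functions are automorphic. -/
theorem isAutomorphic_translate (hg : Conjugates U' U g) {φ : Y U → ℂ} (hφ : IsAutomorphic φ) :
    IsAutomorphic (translate hg φ) := fun γ y => by
  show φ (yShift hg (γ • y)) = φ (yShift hg y)
  rw [yShift_smul, hφ]

/-- Finitely many classes of integral matrices modulo `M`. -/
theorem exists_finite_classes {M : ℕ} (hM : 0 < M) :
    ∃ R : Finset (GLFin F), ∀ k, Reduction.IntGL k →
      ∃ r ∈ R, IsPrincipal F M (r⁻¹ * k) := by
  classical
  obtain ⟨μ, hμ, res, hres⟩ := Reduction.exists_residue (F := F) M hM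
  have := Fintype.ofFinite μ
  let cl : GLFin F → (Fin 2 × Fin 2 → μ) := fun k p => res (k.val p.1 p.2)
  let krep : (Fin 2 × Fin 2 → μ) → GLFin F := fun c =>
    if h : ∃ k, Reduction.IntGL k ∧ cl k = c then h.choose else 1
  refine ⟨Finset.univ.image krep, fun k hk => ⟨krep (cl k), Finset.mem_image_of_mem _
    (Finset.mem_univ _), ?_⟩⟩
  have hkc : ∃ k', Reduction.IntGL k' ∧ cl k' = cl k := ⟨k, hk, rfl⟩
  have hkr : Reduction.IntGL (krep (cl k)) ∧ cl (krep (cl k)) = cl k := by
    simp only [krep, dif_pos hkc]; exact hkc.choose_spec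
  set k' := krep (cl k)
  choose z hz hzk using fun i j => hres (k.val i j) (k'.val i j) (hk.1 i j) (hkr.1.1 i j)
    (congrFun hkr.2 (i, j)).symm
  have hkz : k.val = k'.val + M • Matrix.of z := by
    ext i j; simpa [nsmul_eq_mul] using hzk i j
  intro i j
  refine ⟨((k'⁻¹).val * Matrix.of z) i j, ?_, (-((k⁻¹).val * Matrix.of z)) i j, ?_, ?_, ?_⟩
  · rw [Matrix.mul_apply]
    exact sum_mem fun l _ => mul_mem (hkr.1.2 i l) (hz l j)
  · rw [Matrix.neg_apply, Matrix.mul_apply]
    exact neg_mem (sum_mem fun l _ => mul_mem (hk.2 i l) (hz l j))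
  · rw [Units.val_mul, hkz, Matrix.mul_add, mul_smul_comm, ← Units.val_mul, inv_mul_cancel,
      Units.val_one, Matrix.add_apply, Matrix.smul_apply, nsmul_eq_mul]
  · have : k'.val = k.val - M • Matrix.of z := by rw [hkz, add_sub_cancel_right]
    rw [_root_.mul_inv_rev, inv_inv, Units.val_mul, this, Matrix.mul_sub, mul_smul_comm,
      ← Units.val_mul, inv_mul_cancel, Units.val_one, Matrix.sub_apply, Matrix.smul_apply,
      nsmul_eq_mul, Matrix.neg_apply]
    ring

theorem fibre_smul (hg : Conjugates U' U g) (a : GLFin F) (c : GLFin F ⧸ U.toSubgroup) :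
    cosetShift hg ⁻¹' {a • c} = (fun b => a • b) '' (cosetShift hg ⁻¹' {c}) := by
  ext b
  refine ⟨fun hb => ⟨a⁻¹ • b, ?_, smul_inv_smul a b⟩, ?_⟩
  · rw [Set.mem_preimage, Set.mem_singleton_iff, cosetShift_smul, inv_smul_eq_iff]
    exact hb
  · rintro ⟨b', hb', rfl⟩
    rw [Set.mem_preimage, Set.mem_singleton_iff] at hb' ⊢
    rw [cosetShift_smul, hb']

/-- The fibres of `cosetShift` are finite. -/
theorem finite_fibre (hg : Conjugates U' U g) (c : GLFin F ⧸ U.toSubgroup) :
    (cosetShift hg ⁻¹' {c}).Finite := by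
  induction c using QuotientGroup.induction_on with
  | H y =>
  rw [show (QuotientGroup.mk y : GLFin F ⧸ U.toSubgroup) = y • QuotientGroup.mk 1 from
    congrArg QuotientGroup.mk (mul_one y).symm, fibre_smul]
  refine Set.Finite.image _ ?_
  obtain ⟨N, hN, hU'⟩ := U'.exists_principal
  obtain ⟨M, hM, hc⟩ := exists_principal_conj g⁻¹ hN
  obtain ⟨R, hR⟩ := exists_finite_classes (F := F) hM
  refine ((R.finite_toSet.image fun r => (QuotientGroup.mk (r * g⁻¹) :
    GLFin F ⧸ U'.toSubgroup))).subset ?_
  intro b hb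
  induction b using QuotientGroup.induction_on with
  | H x =>
  rw [Set.mem_preimage, Set.mem_singleton_iff, cosetShift_mk, QuotientGroup.eq, mul_one] at hb
  obtain ⟨a, k, hk, hx⟩ := U.le_maximal _ (inv_mem hb)
  rw [inv_inv] at hx
  obtain ⟨r, hr, hrk⟩ := hR k (Reduction.intGL_of_isPrincipal hk)
  refine ⟨r, hr, QuotientGroup.eq.mpr ?_⟩
  have h1 := U'.toSubgroup.mul_mem (U'.scalar_mem a) (hU' _ (hc _ hrk))
  rw [inv_inv] at h1
  rw [show (r * g⁻¹)⁻¹ * x = scalarFin F a * (g * (r⁻¹ * k) * g⁻¹) by
    rw [show x = x * g * g⁻¹ by group, hx, _root_.mul_inv_rev, inv_inv]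
    simp only [mul_assoc]
    rw [← mul_assoc r⁻¹ (scalarFin F a), ← scalarFin_comm, mul_assoc, ← mul_assoc g,
      ← scalarFin_comm, mul_assoc]]
  exact h1

/-- The number of points in a fibre. -/
def index (hg : Conjugates U' U g) : ℕ :=
  (finite_fibre hg (QuotientGroup.mk 1)).toFinset.card

/-- The fibres of `cosetShift` are not empty. -/
theorem index_pos (hg : Conjugates U' U g) : 0 < index hg := by
  obtain ⟨b, hb⟩ := cosetShift_surjective hg (QuotientGroup.mk 1)
  exact Finset.card_pos.mpr ⟨b, (Set.Finite.mem_toFinset _).mpr hb⟩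

/-- The sum over the fibres; for `g = 1` the finite averaging to a larger level. -/
def trace (hg : Conjugates U' U g) (φ : Y U' → ℂ) : Y U → ℂ :=
  fun y => ∑ b ∈ (finite_fibre hg y.2).toFinset, φ (y.1, b)

/-- A trace evaluated at the class of `x`, as a sum over one fibre. -/
theorem trace_mk (hg : Conjugates U' U g) (φ : Y U' → ℂ)
    (P : NumberField.InfinitePlace F → H3) (x : GLFin F) :
    trace hg φ (P, QuotientGroup.mk x) =
      ∑ b ∈ (finite_fibre hg (QuotientGroup.mk 1)).toFinset, φ (P, x • b) := by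
  classical
  have h : (finite_fibre hg (QuotientGroup.mk x : GLFin F ⧸ U.toSubgroup)).toFinset =
      ((finite_fibre hg (QuotientGroup.mk 1)).toFinset).image fun b => x • b := by
    refine Finset.coe_injective ?_
    rw [Finset.coe_image, Set.Finite.coe_toFinset, Set.Finite.coe_toFinset, ← fibre_smul]
    exact congrArg (fun c => cosetShift hg ⁻¹' {c}) (congrArg QuotientGroup.mk (mul_one x).symm)
  show ∑ b ∈ (finite_fibre hg (QuotientGroup.mk x : GLFin F ⧸ U.toSubgroup)).toFinset, φ (P, b) = _
  rw [h, Finset.sum_image fun a _ b _ hab => MulAction.injective x hab]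

/-- Traces of automorphic functions are automorphic. -/
theorem isAutomorphic_trace (hg : Conjugates U' U g) {φ : Y U' → ℂ} (hφ : IsAutomorphic φ) :
    IsAutomorphic (trace hg φ) := fun γ y => by
  obtain ⟨P, c⟩ := y
  induction c using QuotientGroup.induction_on with
  | H x =>
  show trace hg φ ((γ • (P, (QuotientGroup.mk x : GLFin F ⧸ U.toSubgroup)) : Y U).1,
    QuotientGroup.mk (glIncl F γ * x)) = _
  rw [trace_mk, trace_mk]
  refine Finset.sum_congr rfl fun b _ => ?_
  rw [← hφ γ (P, x • b), mul_smul]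
  rfl

end Translate

end Fermat.Agent.LT
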